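/-
Program C (S55), package C9b layer 1: elementary facts about `p`-primary elements of abelian
groups, used by the two chases `GSChase.lean` and `KummerChase.lean` (helper47).  Mathlib only.
-/
import Fermat.Agent.S55.H70.GSAbstract

set_option autoImplicit false

namespace Fermat.Agent.S55.H47

open Fermat.Agent.S55.H70

variable {p : ℕ} {A B : Type*} [AddCommGroup A] [AddCommGroup B]

theorem isPPrimary_zero : IsPPrimary p (0 : A) := ⟨0, by simp⟩

theorem isPPrimary_map {x : A} (h : IsPPrimary p x) (f : A →+ B) : IsPPrimary p (f x) := by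
  obtain ⟨k, hk⟩ := h
  exact ⟨k, by rw [← map_nsmul, hk, map_zero]⟩

theorem isPPrimary_add {x y : A} (hx : IsPPrimary p x) (hy : IsPPrimary p y) :
    IsPPrimary p (x + y) := by
  obtain ⟨k, hk⟩ := hx
  obtain ⟨l, hl⟩ := hy
  refine ⟨k + l, ?_⟩
  have h1 : p ^ (k + l) • x = 0 := by rw [pow_add, mul_comm, mul_smul, hk, smul_zero]
  have h2 : p ^ (k + l) • y = 0 := by rw [pow_add, mul_smul, hl, smul_zero]
  rw [smul_add, h1, h2, add_zero]

theorem isPPrimary_neg {x : A} (hx : IsPPrimary p x) : IsPPrimary p (-x) := by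
  obtain ⟨k, hk⟩ := hx
  exact ⟨k, by rw [smul_neg, hk, neg_zero]⟩

theorem isPPrimary_sub {x y : A} (hx : IsPPrimary p x) (hy : IsPPrimary p y) :
    IsPPrimary p (x - y) := by
  rw [sub_eq_add_neg]
  exact isPPrimary_add hx (isPPrimary_neg hy)

theorem isPPrimary_nsmul {x : A} (hx : IsPPrimary p x) (n : ℕ) : IsPPrimary p (n • x) := by
  obtain ⟨k, hk⟩ := hx
  exact ⟨k, by rw [smul_comm, hk, smul_zero]⟩

theorem isPPrimary_sum {ι : Type*} (s : Finset ι) (f : ι → A) (h : ∀ i ∈ s, IsPPrimary p (f i)) :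
    IsPPrimary p (∑ i ∈ s, f i) := by
  classical
  induction s using Finset.induction_on with
  | empty => simpa using (isPPrimary_zero : IsPPrimary p (0 : A))
  | insert a s ha ih =>
    rw [Finset.sum_insert ha]
    exact isPPrimary_add (h a (Finset.mem_insert_self a s))
      (ih fun i hi => h i (Finset.mem_insert_of_mem hi))

theorem isPPrimary_of_smul_eq_zero {x : A} (h : p • x = 0) : IsPPrimary p x :=
  ⟨1, by rw [pow_one]; exact h⟩

/-- An element killed by `m` prime to `p` and by a power of `p` vanishes. -/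
theorem eq_zero_of_coprime {m : ℕ} (hm : Nat.Coprime m p) {x : A}
    (hmx : m • x = 0) (hx : IsPPrimary p x) : x = 0 := by
  obtain ⟨k, hk⟩ := hx
  have hc : IsCoprime (m : ℤ) ((p ^ k : ℕ) : ℤ) :=
    Nat.isCoprime_iff_coprime.2 (Nat.Coprime.pow_right k hm)
  obtain ⟨u, v, huv⟩ := hc
  have h1 : ((m : ℤ)) • x = 0 := by rw [natCast_zsmul]; exact hmx
  have h2 : (((p ^ k : ℕ) : ℤ)) • x = 0 := by rw [natCast_zsmul]; exact hk
  calc x = (1 : ℤ) • x := (one_smul ℤ x).symm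
    _ = (u * m + v * ((p ^ k : ℕ) : ℤ)) • x := by rw [huv]
    _ = u • ((m : ℤ) • x) + v • ((((p ^ k : ℕ) : ℤ)) • x) := by rw [add_smul, mul_smul, mul_smul]
    _ = 0 := by rw [h1, h2, smul_zero, smul_zero, add_zero]

/-- An element killed by `m` prime to `p` is divisible by `p`. -/
theorem exists_smul_eq_of_coprime {m : ℕ} (hm : Nat.Coprime m p) {x : A}
    (hmx : m • x = 0) : ∃ y : A, p • y = x := by
  have hc : IsCoprime (m : ℤ) (p : ℤ) := Nat.isCoprime_iff_coprime.2 hm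
  obtain ⟨u, v, huv⟩ := hc
  have h1 : ((m : ℤ)) • x = 0 := by rw [natCast_zsmul]; exact hmx
  refine ⟨v • x, ?_⟩
  calc p • (v • x) = (p : ℤ) • (v • x) := (natCast_zsmul _ _).symm
    _ = u • ((m : ℤ) • x) + (v * (p : ℤ)) • x := by
        rw [h1, smul_zero, zero_add, mul_comm, mul_smul]
    _ = (u * m + v * p) • x := by rw [add_smul, mul_smul u]
    _ = x := by rw [huv, one_smul]

/-- A torsion element is the sum of a `p`-primary element and an element killed by an integer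
prime to `p`. -/
theorem exists_decomp (hp : p.Prime) {x : A} (hx : ∃ n : ℕ, 0 < n ∧ n • x = 0) :
    ∃ (m : ℕ) (x₁ x₂ : A), Nat.Coprime m p ∧ x = x₁ + x₂ ∧ IsPPrimary p x₁ ∧ m • x₂ = 0 := by
  obtain ⟨n, hn0, hn⟩ := hx
  obtain ⟨k, m, hpm, rfl⟩ := Nat.exists_eq_pow_mul_and_not_dvd hn0.ne' p hp.ne_one
  have hmp : Nat.Coprime m p := ((Nat.Prime.coprime_iff_not_dvd hp).2 hpm).symm
  have hc : IsCoprime (m : ℤ) ((p ^ k : ℕ) : ℤ) :=
    Nat.isCoprime_iff_coprime.2 (Nat.Coprime.pow_right k hmp)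
  obtain ⟨u, v, huv⟩ := hc
  have hz : (((p ^ k : ℕ) : ℤ) * (m : ℤ)) • x = 0 := by
    rw [← Nat.cast_mul, natCast_zsmul]; exact hn
  refine ⟨m, (u * m) • x, (v * ((p ^ k : ℕ) : ℤ)) • x, hmp, ?_, ⟨k, ?_⟩, ?_⟩
  · rw [← add_smul, huv, one_smul]
  · rw [← natCast_zsmul, ← mul_smul]
    have : ((p ^ k : ℕ) : ℤ) * (u * (m : ℤ)) = u * (((p ^ k : ℕ) : ℤ) * (m : ℤ)) := by ring
    rw [this, mul_smul, hz, smul_zero]
  · rw [← natCast_zsmul, ← mul_smul]
    have : (m : ℤ) * (v * ((p ^ k : ℕ) : ℤ)) = v * (((p ^ k : ℕ) : ℤ) * (m : ℤ)) := by ring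
    rw [this, mul_smul, hz, smul_zero]

end Fermat.Agent.S55.H47
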