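/-
Program C (S55), package C9b layer 1a (helper47): the chase
`Fermat.Agent.S55.H70.GSChaseStatement` for `0 → E_S → Q_S^× → P_S → 0`, verbatim.  Mathlib only.
-/
import Fermat.Agent.S55.H47.PPrimary

set_option autoImplicit false

namespace Fermat.Agent.S55.H47

open Fermat.Agent.S55.H70

/-- LAYER 1a of C9b: the chase for `0 → E_S → Q_S^× → P_S → 0`. -/
theorem gsChase : GSChaseStatement := by
  intro p hp T _ P1 E2 Q2 P2 E3 Q3 _ _ _ _ _ _ d1 i2 π2 d2 i3 hE2 hQ2 hQ2' hP2' hE3 htP1 htE2
    htP2 V VS hVS inv lam hB1 hB2 hB3 hB4 hPa hPb hPbfin hlam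
  classical
  -- the invariants of `E2`-classes vanish outside `VS`
  have hout : ∀ (x : E2) (v : V), v ∉ VS → inv v (i2 x) = 0 := by
    intro x v hv
    rw [← hlam v hv, hQ2', map_zero]
  refine ⟨?_, ?_, ?_, ?_⟩
  · -- (ES1)
    intro x hx hI
    have h0 : i2 x = 0 := hB1 _ (isPPrimary_map hx i2) (fun v => by
      by_cases hv : v ∈ VS
      · exact hI v hv
      · exact hout x v hv)
    obtain ⟨c, rfl⟩ := hE2 x h0
    obtain ⟨m, c1, c2, hm, rfl, hc1, hc2⟩ := exists_decomp hp (htP1 c)
    have hc10 : c1 = 0 := hPa c1 hc1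
    subst hc10
    rw [zero_add] at hx ⊢
    exact eq_zero_of_coprime hm (by rw [← map_nsmul, hc2, map_zero]) hx
  · -- (ES2)
    intro t ht hsum
    have hprim : ∀ v, IsPPrimary p (if v ∈ VS then t v else 0) := by
      intro v
      by_cases hv : v ∈ VS
      · rw [if_pos hv]; exact ht v
      · rw [if_neg hv]; exact isPPrimary_zero
    obtain ⟨y, hy, hIy⟩ := hB3 (fun v => if v ∈ VS then t v else 0) VS hprim
      (fun v hv => if_neg hv)
      (by rw [Finset.sum_congr rfl (fun v hv => if_pos hv)]; exact hsum)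
    have hπ : π2 y = 0 := hPb _ (isPPrimary_map hy π2)
      (fun v hv => by rw [hlam v hv, hIy, if_neg hv])
    obtain ⟨x, rfl⟩ := hQ2 y hπ
    obtain ⟨m, x1, x2, hm, rfl, hx1, hx2⟩ := exists_decomp hp (htE2 x)
    have h2 : i2 x2 = 0 :=
      eq_zero_of_coprime hm (by rw [← map_nsmul, hx2, map_zero]) (by
        have h3 : i2 x2 = i2 (x1 + x2) - i2 x1 := by rw [map_add]; abel
        rw [h3]
        exact isPPrimary_sub hy (isPPrimary_map hx1 i2))
    refine ⟨x1, hx1, fun v hv => ?_⟩
    have h4 := hIy v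
    rw [map_add, h2, add_zero, if_pos hv] at h4
    exact h4
  · -- (ES3)
    intro x
    exact hB2 _ (fun v hv => hout x v hv)
  · -- (ES4)
    intro x hx
    have h0 : i3 x = 0 := hB4 _ (isPPrimary_map hx i3)
    obtain ⟨c, rfl⟩ := hE3 x h0
    obtain ⟨m, c1, c2, hm, rfl, hc1, hc2⟩ := exists_decomp hp (htP2 c)
    have h2 : d2 c2 = 0 :=
      eq_zero_of_coprime hm (by rw [← map_nsmul, hc2, map_zero]) (by
        have h3 : d2 c2 = d2 (c1 + c2) - d2 c1 := by rw [map_add]; abel
        rw [h3]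
        exact isPPrimary_sub hx (isPPrimary_map hc1 d2))
    rw [map_add, h2, add_zero]
    obtain ⟨W, hW⟩ := hPbfin c1
    obtain ⟨v0, hv0⟩ := hVS
    have hv0W : v0 ∉ W \ VS := fun h => (Finset.mem_sdiff.1 h).2 hv0
    let t : V → T := fun v =>
      if v = v0 then - ∑ w ∈ W \ VS, lam w c1 else if v ∈ VS then 0 else lam v c1
    have hprim : ∀ v, IsPPrimary p (t v) := by
      intro v
      by_cases h1 : v = v0
      · simp only [t, if_pos h1]
        exact isPPrimary_neg (isPPrimary_sum _ _ fun w _ => isPPrimary_map hc1 (lam w))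
      · by_cases h2 : v ∈ VS
        · simp only [t, if_neg h1, if_pos h2]
          exact isPPrimary_zero
        · simp only [t, if_neg h1, if_neg h2]
          exact isPPrimary_map hc1 (lam v)
    have hsupp : ∀ v, v ∉ insert v0 (W \ VS) → t v = 0 := by
      intro v hv
      rw [Finset.mem_insert, not_or] at hv
      by_cases h2 : v ∈ VS
      · simp only [t, if_neg hv.1, if_pos h2]
      · simp only [t, if_neg hv.1, if_neg h2]
        exact hW v (fun hvW => hv.2 (Finset.mem_sdiff.2 ⟨hvW, h2⟩))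
    have hsum : ∑ v ∈ insert v0 (W \ VS), t v = 0 := by
      rw [Finset.sum_insert hv0W]
      have h5 : ∑ v ∈ W \ VS, t v = ∑ v ∈ W \ VS, lam v c1 := by
        refine Finset.sum_congr rfl (fun v hv => ?_)
        have hvVS : v ∉ VS := (Finset.mem_sdiff.1 hv).2
        have hne : v ≠ v0 := fun h => hvVS (h ▸ hv0)
        simp only [t, if_neg hne, if_neg hvVS]
      rw [h5]
      simp only [t, if_true]
      exact neg_add_cancel _
    obtain ⟨y, hy, hIy⟩ := hB3 t (insert v0 (W \ VS)) hprim hsupp hsum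
    have hc : c1 - π2 y = 0 := hPb _ (isPPrimary_sub hc1 (isPPrimary_map hy π2))
      (fun v hv => by
        have hne : v ≠ v0 := fun h => hv (h ▸ hv0)
        rw [map_sub, hlam v hv, hIy]
        simp only [t, if_neg hne, if_neg hv]
        exact sub_self _)
    rw [sub_eq_zero.1 hc, hP2']

end Fermat.Agent.S55.H47
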