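/-
Program C (S55), package C9b layer 1b (helper47): the Kummer chase
`Fermat.Agent.S55.H70.KummerChaseStatement`, verbatim.  Mathlib only.
-/
import Fermat.Agent.S55.H47.PPrimary

set_option autoImplicit false

namespace Fermat.Agent.S55.H47

open Fermat.Agent.S55.H70

/-- LAYER 1b of C9b: the chase for the Kummer sequence `0 → μ_p → E_S → E_S → 0`. -/
theorem kummerChase : KummerChaseStatement := by
  intro p hp T _ hdiv E1 M2 E2 M3 E3 _ _ _ _ _ δ1 j2 δ2 j3 hM2 hE2 hE2' hM3 hpM2 hpM3 htE2
    VS _ _ I ES1 ES2 ES3 ES4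
  classical
  -- the `p`-primary elements of `E2` are divisible by `p`
  have key : ∀ e : E2, IsPPrimary p e → ∃ y : E2, p • y = e := by
    intro e he
    have ht : ∀ v, IsPPrimary p (I v e) := fun v => isPPrimary_map he (I v)
    choose t' ht'p ht' using fun v => hdiv (I v e) (ht v)
    obtain ⟨v0⟩ := (inferInstance : Nonempty VS)
    have hS : p • ∑ w, t' w = 0 := by
      rw [Finset.smul_sum]
      simp only [ht']
      exact ES3 e
    let t'' : VS → T := fun v => t' v - (if v = v0 then ∑ w, t' w else 0)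
    have hsum : ∑ v, t'' v = 0 := by
      simp only [t'', Finset.sum_sub_distrib, Finset.sum_ite_eq', Finset.mem_univ, if_true,
        sub_self]
    have hp'' : ∀ v, p • t'' v = I v e := by
      intro v
      simp only [t'', smul_sub, ht']
      by_cases hv : v = v0
      · rw [if_pos hv, hS, sub_zero]
      · rw [if_neg hv, smul_zero, sub_zero]
    have hprim : ∀ v, IsPPrimary p (t'' v) := by
      intro v
      refine isPPrimary_sub (ht'p v) ?_
      by_cases hv : v = v0
      · rw [if_pos hv]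
        exact isPPrimary_sum _ _ fun w _ => ht'p w
      · rw [if_neg hv]
        exact isPPrimary_zero
    obtain ⟨y, hy, hIy⟩ := ES2 t'' hprim hsum
    refine ⟨y, ?_⟩
    have h0 : e - p • y = 0 :=
      ES1 _ (isPPrimary_sub he (isPPrimary_nsmul hy p))
        (fun v => by rw [map_sub, map_nsmul, hIy, hp'', sub_self])
    exact (sub_eq_zero.1 h0).symm
  refine ⟨?_, ?_, ?_, ?_⟩
  · -- (K1)
    intro x
    have h1 : j3 x = 0 :=
      ES4 _ (isPPrimary_of_smul_eq_zero (by rw [← map_nsmul, hpM3, map_zero]))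
    obtain ⟨e, rfl⟩ := hM3 x h1
    obtain ⟨m, e1, e2, hm, rfl, he1, he2⟩ := exists_decomp hp (htE2 e)
    obtain ⟨y1, rfl⟩ := key e1 he1
    obtain ⟨y2, rfl⟩ := exists_smul_eq_of_coprime hm he2
    rw [map_add, hE2', hE2', add_zero]
  · -- (K2)
    intro x
    exact ES3 _
  · -- (K3)
    intro t ht hsum
    obtain ⟨e, he, hIe⟩ := ES2 t (fun v => isPPrimary_of_smul_eq_zero (ht v)) hsum
    have h0 : p • e = 0 :=
      ES1 _ (isPPrimary_nsmul he p) (fun v => by rw [map_nsmul, hIe, ht])
    obtain ⟨x, rfl⟩ := hE2 e h0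
    exact ⟨x, hIe⟩
  · -- (K4)
    intro x hx
    have h0 : j2 x = 0 :=
      ES1 _ (isPPrimary_of_smul_eq_zero (by rw [← map_nsmul, hpM2, map_zero])) hx
    exact hM2 x h0

end Fermat.Agent.S55.H47
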